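import Mathlib
import Fermat.Agent.S24.QBridge
import Fermat.Agent.S24.Puiseux.Subst
import Fermat.Agent.S24.JFun

set_option autoImplicit false

/-!
# `K`-rational `q^(1/N)`-expansions of functions on the upper half plane

`HasQExpK ι N A φ` : for every `τ : ℍ` the Laurent series `A ∈ K((s))` (coefficients mapped to `ℂ`
by `ι : K →+* ℂ`) evaluated at `s = exp(2πi τ / N)` sums to `φ τ`.

Contents: algebra (`add`, `mul`, `neg`, `sub`, constants), uniqueness, automatic holomorphy,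
the shift `τ ↦ τ + 1`, the expansions of `τ ↦ j((aτ+b)/d)` (= `Puiseux.cuspP`), periodic descent.
-/

open UpperHalfPlane ModularForm Complex Filter Topology Function HahnSeries
open scoped Real MatrixGroups Manifold

namespace Fermat.Agent.S24.QB

open Fermat.Agent.S24.Puiseux ModularCurve

variable {K : Type*} [Field K]

/-! ### Pointwise expansions -/

/-- `v` is the value at `x` of the power series `P` (coefficients mapped by `ι`). -/
def HasPExp (ι : K →+* ℂ) (x : ℂ) (P : PowerSeries K) (v : ℂ) : Prop :=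
  HasSum (fun n : ℕ => ι (PowerSeries.coeff n P) * x ^ n) v

/-- `v` is the value at `x` of the Laurent series `A` (coefficients mapped by `ι`). -/
def HasLExp (ι : K →+* ℂ) (x : ℂ) (A : LaurentSeries K) (v : ℂ) : Prop :=
  HasSum (evalTerm ι A x) v

theorem hasLExp_def (ι : K →+* ℂ) (x : ℂ) (A : LaurentSeries K) (v : ℂ) :
    HasLExp ι x A v ↔ HasSum (fun n : ℤ => ι (A.coeff n) * x ^ n) v := Iff.rfl

theorem hasSum_cauchy {f g : ℕ → ℂ} {a b : ℂ} (hf : HasSum f a) (hg : HasSum g b) :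
    HasSum (fun n => ∑ kl ∈ Finset.HasAntidiagonal.antidiagonal n, f kl.1 * g kl.2) (a * b) := by
  have hf' : Summable (fun n => ‖f n‖) := summable_norm_iff.mpr hf.summable
  have hg' : Summable (fun n => ‖g n‖) := summable_norm_iff.mpr hg.summable
  have hsum : Summable (fun n : ℕ => ∑ kl ∈ Finset.HasAntidiagonal.antidiagonal n,
      f kl.1 * g kl.2) :=
    Summable.of_norm (summable_norm_sum_mul_antidiagonal_of_summable_norm hf' hg')
  have hval := tsum_mul_tsum_eq_tsum_sum_antidiagonal_of_summable_norm hf' hg'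
  rw [hf.tsum_eq, hg.tsum_eq] at hval
  rw [hval]
  exact hsum.hasSum

theorem HasPExp.mul {ι : K →+* ℂ} {x : ℂ} {P Q : PowerSeries K} {v w : ℂ}
    (hP : HasPExp ι x P v) (hQ : HasPExp ι x Q w) : HasPExp ι x (P * Q) (v * w) := by
  have h := hasSum_cauchy hP hQ
  unfold HasPExp
  convert h using 2 with n
  rw [PowerSeries.coeff_mul, map_sum, Finset.sum_mul]
  refine Finset.sum_congr rfl fun kl hkl => ?_
  rw [← Finset.HasAntidiagonal.mem_antidiagonal.mp hkl, _root_.pow_add, map_mul]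
  ring

theorem HasPExp.add {ι : K →+* ℂ} {x : ℂ} {P Q : PowerSeries K} {v w : ℂ}
    (hP : HasPExp ι x P v) (hQ : HasPExp ι x Q w) : HasPExp ι x (P + Q) (v + w) := by
  have h := HasSum.add hP hQ
  unfold HasPExp
  convert h using 2 with n
  rw [map_add, map_add, add_mul]

/-- The power series part of a Laurent series, shifted by `m`. -/
noncomputable def psPart (A : LaurentSeries K) (m : ℕ) : PowerSeries K :=
  PowerSeries.mk fun n => A.coeff ((n : ℤ) - m)

theorem coeff_psPart (A : LaurentSeries K) (m n : ℕ) :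
    PowerSeries.coeff n (psPart A m) = A.coeff ((n : ℤ) - m) := by
  rw [psPart, PowerSeries.coeff_mk]

theorem eq_single_mul_psPart (A : LaurentSeries K) (m : ℕ)
    (hm : ∀ k : ℤ, k < -(m : ℤ) → A.coeff k = 0) :
    A = HahnSeries.single (-(m : ℤ)) (1 : K) * HahnSeries.ofPowerSeries ℤ K (psPart A m) := by
  ext k
  rw [HahnSeries.coeff_single_mul, one_mul, sub_neg_eq_add]
  rcases lt_or_ge (k + m) 0 with h | h
  · rw [ModularCurve.ofPowerSeries_coeff_of_neg _ h, hm k (by omega)]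
  · obtain ⟨n, hn⟩ := Int.eq_ofNat_of_zero_le h
    rw [hn, HahnSeries.ofPowerSeries_apply_coeff, psPart, PowerSeries.coeff_mk]
    congr 1
    omega

theorem coeff_single_mul_ofPowerSeries (m : ℕ) (P : PowerSeries K) (n : ℕ) :
    (HahnSeries.single (-(m : ℤ)) (1 : K) * HahnSeries.ofPowerSeries ℤ K P).coeff ((n : ℤ) - m)
      = PowerSeries.coeff n P := by
  rw [HahnSeries.coeff_single_mul, one_mul, sub_neg_eq_add, sub_add_cancel,
    HahnSeries.ofPowerSeries_apply_coeff]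

theorem coeff_single_mul_ofPowerSeries_of_lt (m : ℕ) (P : PowerSeries K) {k : ℤ}
    (hk : k < -(m : ℤ)) :
    (HahnSeries.single (-(m : ℤ)) (1 : K) * HahnSeries.ofPowerSeries ℤ K P).coeff k = 0 := by
  rw [HahnSeries.coeff_single_mul, one_mul, sub_neg_eq_add]
  exact ModularCurve.ofPowerSeries_coeff_of_neg _ (by omega)

theorem psPart_single_mul (m : ℕ) (P : PowerSeries K) :
    psPart (HahnSeries.single (-(m : ℤ)) (1 : K) * HahnSeries.ofPowerSeries ℤ K P) m = P := by
  ext n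
  rw [psPart, PowerSeries.coeff_mk, coeff_single_mul_ofPowerSeries]

theorem exists_bound (A : LaurentSeries K) : ∃ m : ℕ, ∀ k : ℤ, k < -(m : ℤ) → A.coeff k = 0 := by
  refine ⟨(-A.order).toNat, fun k hk => HahnSeries.coeff_eq_zero_of_lt_order ?_⟩
  have := Int.self_le_toNat (-A.order)
  omega

/-- Laurent expansion at `x ≠ 0` in terms of the shifted power series. -/
theorem hasLExp_iff (ι : K →+* ℂ) {x : ℂ} (hx : x ≠ 0) (A : LaurentSeries K) (m : ℕ)
    (hm : ∀ k : ℤ, k < -(m : ℤ) → A.coeff k = 0) (v : ℂ) :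
    HasLExp ι x A v ↔ HasPExp ι x (psPart A m) (x ^ m * v) := by
  have hinj : Function.Injective (fun n : ℕ => (n : ℤ) - m) := by
    intro a b h
    simpa using h
  have hsupp : ∀ k : ℤ, k ∉ Set.range (fun n : ℕ => (n : ℤ) - m) →
      ι (A.coeff k) * x ^ k = 0 := by
    intro k hk
    have : k < -(m : ℤ) := by
      by_contra hcon
      apply hk
      refine ⟨(k + m).toNat, ?_⟩
      have := Int.toNat_of_nonneg (show 0 ≤ k + m by omega)
      simp only
      omega
    rw [hm k this, map_zero, zero_mul]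
  rw [hasLExp_def, ← hinj.hasSum_iff hsupp]
  unfold HasPExp
  rw [← hasSum_mul_left_iff (a₂ := x ^ m) (pow_ne_zero m hx)]
  refine Iff.of_eq ?_
  congr 1
  funext n
  simp only [Function.comp_apply, psPart, PowerSeries.coeff_mk]
  rw [zpow_sub₀ hx, zpow_natCast, zpow_natCast]
  field_simp

theorem HasLExp.mul {ι : K →+* ℂ} {x : ℂ} (hx : x ≠ 0) {A B : LaurentSeries K} {v w : ℂ}
    (hA : HasLExp ι x A v) (hB : HasLExp ι x B w) : HasLExp ι x (A * B) (v * w) := by
  obtain ⟨m, hm⟩ := exists_bound A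
  obtain ⟨m', hm'⟩ := exists_bound B
  have hA' := (hasLExp_iff ι hx A m hm v).mp hA
  have hB' := (hasLExp_iff ι hx B m' hm' w).mp hB
  have hAB : A * B = HahnSeries.single (-((m + m' : ℕ) : ℤ)) (1 : K)
      * HahnSeries.ofPowerSeries ℤ K (psPart A m * psPart B m') := by
    conv_lhs => rw [eq_single_mul_psPart A m hm, eq_single_mul_psPart B m' hm']
    rw [map_mul, mul_mul_mul_comm, HahnSeries.single_mul_single, one_mul]
    congr 2
    push_cast
    ring
  have hbd : ∀ k : ℤ, k < -((m + m' : ℕ) : ℤ) → (A * B).coeff k = 0 := by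
    intro k hk
    rw [hAB]
    exact coeff_single_mul_ofPowerSeries_of_lt _ _ hk
  rw [hasLExp_iff ι hx (A * B) (m + m') hbd]
  have hps : psPart (A * B) (m + m') = psPart A m * psPart B m' := by
    rw [hAB, psPart_single_mul]
  rw [hps]
  have := hA'.mul hB'
  convert this using 1
  ring

theorem HasLExp.add {ι : K →+* ℂ} {x : ℂ} {A B : LaurentSeries K} {v w : ℂ}
    (hA : HasLExp ι x A v) (hB : HasLExp ι x B w) : HasLExp ι x (A + B) (v + w) := by
  have h := HasSum.add hA hB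
  have he : evalTerm ι (A + B) x = fun n => evalTerm ι A x n + evalTerm ι B x n := by
    funext n
    simp only [evalTerm_def]
    rw [HahnSeries.coeff_add, map_add, add_mul]
  unfold HasLExp
  rw [he]
  exact h

theorem HasLExp.neg {ι : K →+* ℂ} {x : ℂ} {A : LaurentSeries K} {v : ℂ}
    (hA : HasLExp ι x A v) : HasLExp ι x (-A) (-v) := by
  have h := HasSum.neg hA
  have he : evalTerm ι (-A) x = fun n => -evalTerm ι A x n := by
    funext n
    simp only [evalTerm_def]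
    rw [HahnSeries.coeff_neg, map_neg, neg_mul]
  unfold HasLExp
  rw [he]
  exact h

theorem HasLExp.sub {ι : K →+* ℂ} {x : ℂ} {A B : LaurentSeries K} {v w : ℂ}
    (hA : HasLExp ι x A v) (hB : HasLExp ι x B w) : HasLExp ι x (A - B) (v - w) := by
  rw [sub_eq_add_neg, sub_eq_add_neg]
  exact hA.add hB.neg

theorem hasLExp_C (ι : K →+* ℂ) (x : ℂ) (c : K) : HasLExp ι x (HahnSeries.C c) (ι c) := by
  rw [hasLExp_def]
  have h := hasSum_ite_eq (0 : ℤ) (ι c)
  convert h using 2 with n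
  by_cases hn : n = 0
  · subst hn
    simp
  · rw [if_neg hn, HahnSeries.C_apply, HahnSeries.coeff_single_of_ne hn, map_zero, zero_mul]

/-! ### Uniqueness for power series on the punctured disc -/

/-- A complex power series summing to `0` on the punctured unit disc has zero coefficients. -/
theorem coeff_eq_zero_of_hasSum_zero (c : ℕ → ℂ)
    (h : ∀ q : ℂ, q ≠ 0 → ‖q‖ < 1 → HasSum (fun n : ℕ => c n * q ^ n) 0) (n : ℕ) : c n = 0 := by
  classical
  set g : ℂ → ℂ := fun q => if q = 0 then c 0 else 0 with hg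
  have hQ : QBridge.HasQExp (PowerSeries.mk c) g := by
    intro q hq
    simp only [PowerSeries.coeff_mk]
    by_cases hq0 : q = 0
    · subst hq0
      have h0 := hasSum_ite_eq (0 : ℕ) (c 0)
      have hg0 : g 0 = c 0 := if_pos rfl
      rw [hg0]
      convert h0 using 2 with k
      by_cases hk : k = 0
      · subst hk
        simp
      · rw [if_neg hk, zero_pow hk, mul_zero]
    · have hgq : g q = 0 := if_neg hq0
      rw [hgq]
      exact h q hq0 hq
  have han : AnalyticAt ℂ g 0 := hQ.hasFPowerSeriesOnBall.analyticAt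
  have hc0 : c 0 = 0 := by
    rcases han.eventually_eq_zero_or_eventually_ne_zero with h0 | hne
    · have := h0.self_of_nhds
      simp [hg] at this
      exact this
    · exfalso
      have h2 : ∀ᶠ z in 𝓝[≠] (0 : ℂ), g z = 0 :=
        eventually_mem_nhdsWithin.mono (fun z hz => if_neg hz)
      obtain ⟨z, hz1, hz2⟩ := (hne.and h2).exists
      exact hz1 hz2
  have hg0 : g = fun _ => 0 := by
    funext q
    by_cases hq0 : q = 0
    · rw [hg]
      simp only [hq0, if_true]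
      exact hc0
    · exact if_neg hq0
  have hZ : QBridge.HasQExp (0 : PowerSeries ℂ) g := by
    intro q _
    rw [hg0]
    simpa using (hasSum_zero : HasSum (fun _ : ℕ => (0 : ℂ)) 0)
  have := hQ.unique hZ
  have h3 := congrArg (PowerSeries.coeff n) this
  simpa using h3

/-! ### Expansions of functions on the upper half plane -/

/-- `φ` has the `K`-rational `q^(1/N)`-expansion `A`: for all `τ`, the series `A` evaluated at
`s = exp(2πi τ/N)` sums to `φ τ`. -/
def HasQExpK (ι : K →+* ℂ) (N : ℕ) (A : LaurentSeries K) (φ : ℍ → ℂ) : Prop :=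
  ∀ τ : ℍ, HasSum (evalTerm ι A (Complex.exp (2 * Real.pi * Complex.I * (τ : ℂ) / N))) (φ τ)

theorem exp_eq_qParam (N : ℕ) (z : ℂ) :
    Complex.exp (2 * Real.pi * Complex.I * z / N) = Function.Periodic.qParam (N : ℝ) z := by
  simp [Function.Periodic.qParam]

theorem hasQExpK_iff_qParam (ι : K →+* ℂ) (N : ℕ) (A : LaurentSeries K) (φ : ℍ → ℂ) :
    HasQExpK ι N A φ ↔ ∀ τ : ℍ,
      HasSum (fun n : ℤ => ι (A.coeff n) * Function.Periodic.qParam (N : ℝ) (τ : ℂ) ^ n) (φ τ) := by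
  refine forall_congr' fun τ => ?_
  rw [exp_eq_qParam]
  rfl

theorem HasQExpK.congr {ι : K →+* ℂ} {N : ℕ} {A : LaurentSeries K} {φ ψ : ℍ → ℂ}
    (hA : HasQExpK ι N A φ) (h : ∀ τ, φ τ = ψ τ) : HasQExpK ι N A ψ :=
  fun τ => h τ ▸ hA τ

/-- The represented function is determined by the series. -/
theorem HasQExpK.fun_unique {ι : K →+* ℂ} {N : ℕ} {A : LaurentSeries K} {φ ψ : ℍ → ℂ}
    (hA : HasQExpK ι N A φ) (hB : HasQExpK ι N A ψ) : φ = ψ :=
  funext fun τ => (hA τ).unique (hB τ)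

theorem HasQExpK.add {ι : K →+* ℂ} {N : ℕ} {A B : LaurentSeries K} {φ ψ : ℍ → ℂ}
    (hA : HasQExpK ι N A φ) (hB : HasQExpK ι N B ψ) : HasQExpK ι N (A + B) (φ + ψ) :=
  fun τ => HasLExp.add (hA τ) (hB τ)

theorem HasQExpK.mul {ι : K →+* ℂ} {N : ℕ} {A B : LaurentSeries K} {φ ψ : ℍ → ℂ}
    (hA : HasQExpK ι N A φ) (hB : HasQExpK ι N B ψ) : HasQExpK ι N (A * B) (φ * ψ) :=
  fun τ => HasLExp.mul (Complex.exp_ne_zero _) (hA τ) (hB τ)

theorem HasQExpK.neg {ι : K →+* ℂ} {N : ℕ} {A : LaurentSeries K} {φ : ℍ → ℂ}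
    (hA : HasQExpK ι N A φ) : HasQExpK ι N (-A) (-φ) :=
  fun τ => HasLExp.neg (hA τ)

theorem HasQExpK.sub {ι : K →+* ℂ} {N : ℕ} {A B : LaurentSeries K} {φ ψ : ℍ → ℂ}
    (hA : HasQExpK ι N A φ) (hB : HasQExpK ι N B ψ) : HasQExpK ι N (A - B) (φ - ψ) :=
  fun τ => HasLExp.sub (hA τ) (hB τ)

theorem hasQExpK_C (ι : K →+* ℂ) (N : ℕ) (c : K) :
    HasQExpK ι N (HahnSeries.C c) (fun _ => ι c) :=
  fun _ => hasLExp_C ι _ c

theorem hasQExpK_algebraMap (ι : K →+* ℂ) (N : ℕ) (c : K) :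
    HasQExpK ι N (algebraMap K (LaurentSeries K) c) (fun _ => ι c) := by
  have h : algebraMap K (LaurentSeries K) c = HahnSeries.C c := by
    rw [algebraMap_laurentSeries_eq_single, HahnSeries.C_apply]
  rw [h]
  exact hasQExpK_C ι N c

theorem hasQExpK_zero (ι : K →+* ℂ) (N : ℕ) : HasQExpK ι N (0 : LaurentSeries K) (fun _ => 0) := by
  have h := hasQExpK_C ι N (0 : K)
  rw [map_zero, map_zero] at h
  exact h

theorem hasQExpK_one (ι : K →+* ℂ) (N : ℕ) : HasQExpK ι N (1 : LaurentSeries K) (fun _ => 1) := by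
  have h := hasQExpK_C ι N (1 : K)
  rw [map_one, map_one] at h
  exact h

theorem HasQExpK.pow {ι : K →+* ℂ} {N : ℕ} {A : LaurentSeries K} {φ : ℍ → ℂ}
    (hA : HasQExpK ι N A φ) (k : ℕ) : HasQExpK ι N (A ^ k) (φ ^ k) := by
  induction k with
  | zero =>
    rw [pow_zero, pow_zero]
    exact hasQExpK_one ι N
  | succ k ih =>
    rw [pow_succ, pow_succ]
    exact ih.mul hA

/-- every point of the punctured unit disc is `exp(2πi τ/N)` for some `τ : ℍ` -/
theorem exists_upper_exp_eq {N : ℕ} (hN : N ≠ 0) {q : ℂ} (hq0 : q ≠ 0) (hq : ‖q‖ < 1) :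
    ∃ τ : ℍ, Complex.exp (2 * Real.pi * Complex.I * (τ : ℂ) / N) = q := by
  have hNpos : (0 : ℝ) < N := by exact_mod_cast Nat.pos_of_ne_zero hN
  refine ⟨⟨Periodic.invQParam N q, Periodic.im_invQParam_pos_of_norm_lt_one hNpos hq hq0⟩, ?_⟩
  rw [exp_eq_qParam]
  exact Periodic.qParam_right_inv hNpos.ne' hq0

theorem norm_exp_lt_one {N : ℕ} (hN : N ≠ 0) {z : ℂ} (hz : 0 < z.im) :
    ‖Complex.exp (2 * Real.pi * Complex.I * z / N)‖ < 1 := by
  have hNpos : (0 : ℝ) < N := by exact_mod_cast Nat.pos_of_ne_zero hN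
  rw [exp_eq_qParam]
  exact Periodic.norm_qParam_lt_one hNpos hz

/-- The shifted power-series form of an expansion. -/
theorem HasQExpK.hasSum_nat {ι : K →+* ℂ} {N : ℕ} {A : LaurentSeries K} {φ : ℍ → ℂ}
    (h : HasQExpK ι N A φ) (m : ℕ) (hm : ∀ k : ℤ, k < -(m : ℤ) → A.coeff k = 0) (τ : ℍ) :
    HasSum (fun n : ℕ => ι (A.coeff ((n : ℤ) - m))
        * Complex.exp (2 * Real.pi * Complex.I * (τ : ℂ) / N) ^ n)
      (Complex.exp (2 * Real.pi * Complex.I * (τ : ℂ) / N) ^ m * φ τ) := by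
  have h2 := (hasLExp_iff ι (Complex.exp_ne_zero _) A m hm _).mp (h τ)
  unfold HasPExp at h2
  simp only [coeff_psPart] at h2
  exact h2

/-- The expansion `0` function has the zero series only. -/
theorem HasQExpK.eq_zero {ι : K →+* ℂ} {N : ℕ} (hN : N ≠ 0) {A : LaurentSeries K}
    (h : HasQExpK ι N A (fun _ => 0)) : A = 0 := by
  obtain ⟨m, hm⟩ := exists_bound A
  have key : ∀ n : ℕ, ι (A.coeff ((n : ℤ) - m)) = 0 := by
    apply coeff_eq_zero_of_hasSum_zero
    intro q hq0 hq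
    obtain ⟨τ, hτ⟩ := exists_upper_exp_eq hN hq0 hq
    have h2 := h.hasSum_nat m hm τ
    rw [hτ, mul_zero] at h2
    exact h2
  ext k
  rw [HahnSeries.coeff_zero]
  rcases lt_or_ge k (-(m : ℤ)) with hk | hk
  · exact hm k hk
  · have h3 := key (k + m).toNat
    have h4 : (((k + m).toNat : ℕ) : ℤ) - m = k := by
      have := Int.toNat_of_nonneg (show 0 ≤ k + m by omega)
      omega
    rw [h4] at h3
    exact (map_eq_zero ι).mp h3

/-- **Uniqueness of expansions.** -/
theorem HasQExpK.unique {ι : K →+* ℂ} {N : ℕ} (hN : N ≠ 0) {A B : LaurentSeries K} {φ : ℍ → ℂ}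
    (hA : HasQExpK ι N A φ) (hB : HasQExpK ι N B φ) : A = B := by
  have h : HasQExpK ι N (A - B) (fun _ => 0) := (hA.sub hB).congr (fun τ => by simp)
  exact sub_eq_zero.mp (h.eq_zero hN)

/-- A function with an expansion is holomorphic on `ℍ`. -/
theorem HasQExpK.mdiff {ι : K →+* ℂ} {N : ℕ} (hN : N ≠ 0) {A : LaurentSeries K} {φ : ℍ → ℂ}
    (h : HasQExpK ι N A φ) : MDiff φ := by
  obtain ⟨m, hm⟩ := exists_bound A
  set c : ℕ → ℂ := fun n => ι (A.coeff ((n : ℤ) - m)) with hc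
  set g : ℂ → ℂ := fun q => ∑' n : ℕ, c n * q ^ n with hg
  have hQ : QBridge.HasQExp (PowerSeries.mk c) g := by
    intro q hq
    simp only [PowerSeries.coeff_mk]
    by_cases hq0 : q = 0
    · subst hq0
      have h0 := hasSum_ite_eq (0 : ℕ) (c 0)
      have hfun : (fun n : ℕ => c n * (0 : ℂ) ^ n) = fun n => if n = 0 then c 0 else 0 := by
        funext k
        by_cases hk : k = 0
        · subst hk
          simp
        · rw [if_neg hk, zero_pow hk, mul_zero]
      rw [hfun]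
      have hg0 : g 0 = c 0 := by
        simp only [hg]
        rw [hfun]
        exact h0.tsum_eq
      rw [hg0]
      exact h0
    · obtain ⟨τ, hτ⟩ := exists_upper_exp_eq hN hq0 hq
      have h2 := h.hasSum_nat m hm τ
      rw [hτ] at h2
      exact h2.summable.hasSum
  have hdiff : DifferentiableOn ℂ g (Metric.ball 0 1) := by
    have h5 := hQ.hasFPowerSeriesOnBall.differentiableOn
    rw [← ENNReal.coe_one, Metric.eball_coe, NNReal.coe_one] at h5
    exact h5
  have hφ : ∀ τ : ℍ, φ τ = (Complex.exp (2 * Real.pi * Complex.I * (τ : ℂ) / N))⁻¹ ^ m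
      * g (Complex.exp (2 * Real.pi * Complex.I * (τ : ℂ) / N)) := by
    intro τ
    have hs : Complex.exp (2 * Real.pi * Complex.I * (τ : ℂ) / N) ≠ 0 := Complex.exp_ne_zero _
    have h2 := h.hasSum_nat m hm τ
    have h3 : g (Complex.exp (2 * Real.pi * Complex.I * (τ : ℂ) / N))
        = Complex.exp (2 * Real.pi * Complex.I * (τ : ℂ) / N) ^ m * φ τ := h2.tsum_eq
    rw [h3, inv_pow, ← mul_assoc, inv_mul_cancel₀ (pow_ne_zero m hs), one_mul]
  rw [UpperHalfPlane.mdifferentiable_iff]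
  have he : Differentiable ℂ (fun z : ℂ => Complex.exp (2 * Real.pi * Complex.I * z / N)) := by
    fun_prop
  have hmaps : Set.MapsTo (fun z : ℂ => Complex.exp (2 * Real.pi * Complex.I * z / N))
      {z : ℂ | 0 < z.im} (Metric.ball 0 1) := by
    intro z hz
    rw [mem_ball_zero_iff]
    exact norm_exp_lt_one hN hz
  have h1 : DifferentiableOn ℂ (fun z : ℂ => (Complex.exp (2 * Real.pi * Complex.I * z / N))⁻¹ ^ m
      * g (Complex.exp (2 * Real.pi * Complex.I * z / N))) {z : ℂ | 0 < z.im} := by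
    refine DifferentiableOn.mul ?_ (hdiff.comp he.differentiableOn hmaps)
    exact ((he.differentiableOn).inv (fun z _ => Complex.exp_ne_zero _)).pow m
  refine h1.congr ?_
  intro z hz
  simp only [Function.comp_apply]
  rw [hφ, ofComplex_apply_of_im_pos hz]

/-! ### The shift `τ ↦ τ + 1` -/

theorem HasQExpK.shift {ι : K →+* ℂ} {N : ℕ} {A : LaurentSeries K} {φ : ℍ → ℂ} (ζ : Kˣ)
    (hζ : ι (ζ : K) = Complex.exp (2 * Real.pi * Complex.I / N)) (h : HasQExpK ι N A φ) :
    HasQExpK ι N (scale ζ A) (fun τ => φ ((1 : ℝ) +ᵥ τ)) := by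
  intro τ
  rw [hasSum_shift_iff ι ζ hζ A (τ : ℂ) _]
  have h1 := h ((1 : ℝ) +ᵥ τ)
  rw [UpperHalfPlane.coe_vadd] at h1
  have h2 : ((1 : ℝ) : ℂ) + (τ : ℂ) = (τ : ℂ) + 1 := by
    push_cast
    ring
  rw [h2] at h1
  exact h1

theorem HasQExpK.shift_T {ι : K →+* ℂ} {N : ℕ} {A : LaurentSeries K} {φ : ℍ → ℂ} (ζ : Kˣ)
    (hζ : ι (ζ : K) = Complex.exp (2 * Real.pi * Complex.I / N)) (h : HasQExpK ι N A φ) :
    HasQExpK ι N (scale ζ A) (fun τ => φ (ModularGroup.T • τ)) := by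
  have h1 := h.shift ζ hζ
  refine h1.congr fun τ => ?_
  rw [UpperHalfPlane.modular_T_smul]

/-! ### The expansions of `τ ↦ j((aτ+b)/d)` -/

theorem coeff_jqModC_sub_one (n : ℕ) :
    (jqModC K).coeff ((n : ℤ) - 1) = ((PowerSeries.coeff n jNum : ℤ) : K) := by
  rw [jqModC, HahnSeries.coeff_single_mul, one_mul,
    show ((n : ℤ) - 1 - (-1)) = (n : ℤ) by ring, HahnSeries.ofPowerSeries_apply_coeff,
    PowerSeries.coeff_map]
  rfl

/-- The formal `jqModC K` evaluated at `exp(2πi τ)` is `j(τ)`. -/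
theorem hasSum_evalTerm_jqModC (ι : K →+* ℂ) (τ : ℍ) :
    HasSum (evalTerm ι (jqModC K) (Complex.exp (2 * Real.pi * Complex.I * (τ : ℂ))))
      (JFun.jFun τ) := by
  have h := QBridge.hasSum_jNum τ
  have hq : Function.Periodic.qParam 1 (τ : ℂ) = Complex.exp (2 * Real.pi * Complex.I * (τ : ℂ)) := by
    simp [Function.Periodic.qParam]
  rw [hq] at h
  have hq0 : Complex.exp (2 * Real.pi * Complex.I * (τ : ℂ)) ≠ 0 := Complex.exp_ne_zero _
  have hm : ∀ k : ℤ, k < -((1 : ℕ) : ℤ) → (jqModC K).coeff k = 0 := fun k hk =>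
    jqModC_coeff_of_lt (by simpa using hk)
  have h2 : HasPExp ι (Complex.exp (2 * Real.pi * Complex.I * (τ : ℂ))) (psPart (jqModC K) 1)
      (Complex.exp (2 * Real.pi * Complex.I * (τ : ℂ)) ^ 1 * JFun.jFun τ) := by
    unfold HasPExp
    have hfun : (fun n : ℕ => ι (PowerSeries.coeff n (psPart (jqModC K) 1))
        * Complex.exp (2 * Real.pi * Complex.I * (τ : ℂ)) ^ n)
        = fun n : ℕ => ((PowerSeries.coeff n ModularCurve.jNum : ℤ) : ℂ)
          * Complex.exp (2 * Real.pi * Complex.I * (τ : ℂ)) ^ n := by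
      funext n
      rw [coeff_psPart, Nat.cast_one, coeff_jqModC_sub_one, map_intCast]
    rw [hfun, pow_one]
    exact h
  exact (hasLExp_iff ι hq0 (jqModC K) 1 hm _).mpr h2

/-- **Expansion of `τ ↦ j((aτ+b)/d)`**: it is `Puiseux.cuspP ζ N a d b` in `s = exp(2πi τ/N)`. -/
theorem hasSum_cuspP (ι : K →+* ℂ) {N : ℕ} (hN : N ≠ 0) (ζ : Kˣ)
    (hζ : ι (ζ : K) = Complex.exp (2 * Real.pi * Complex.I / N))
    (a d : ℕ) (b : ℤ) (hd : d ∣ N) (ha : a ≠ 0) (τ τ' : ℍ)
    (hτ' : (τ' : ℂ) = (a * (τ : ℂ) + b) / d) :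
    HasSum (evalTerm ι (cuspP ζ N a d b) (Complex.exp (2 * Real.pi * Complex.I * (τ : ℂ) / N)))
      (JFun.jFun τ') := by
  rw [hasSum_cuspP_iff ι hN ζ hζ a d b hd ha (τ : ℂ), ← hτ']
  exact hasSum_evalTerm_jqModC ι τ'

/-- the point `(aτ+b)/d` of the upper half plane -/
noncomputable def moebPt (a d : ℕ) (b : ℤ) (ha : 0 < a) (hd : 0 < d) (τ : ℍ) : ℍ :=
  ⟨(a * (τ : ℂ) + b) / d, by
    have h1 : ((a * (τ : ℂ) + b) / d).im = a * τ.im / d := by
      have h2 : (a * (τ : ℂ) + b) / d = (((a : ℝ) / d : ℝ) : ℂ) * (τ : ℂ) + (((b : ℝ) / d : ℝ) : ℂ) := by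
        have hd' : (d : ℂ) ≠ 0 := by exact_mod_cast hd.ne'
        push_cast
        field_simp
      rw [h2, Complex.add_im, Complex.im_ofReal_mul, Complex.ofReal_im, add_zero]
      simp only [UpperHalfPlane.coe_im]
      ring
    rw [h1]
    have hτ := τ.im_pos
    positivity⟩

theorem coe_moebPt (a d : ℕ) (b : ℤ) (ha : 0 < a) (hd : 0 < d) (τ : ℍ) :
    ((moebPt a d b ha hd τ : ℍ) : ℂ) = (a * (τ : ℂ) + b) / d := rfl

theorem hasQExpK_cuspP (ι : K →+* ℂ) {N : ℕ} (hN : N ≠ 0) (ζ : Kˣ)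
    (hζ : ι (ζ : K) = Complex.exp (2 * Real.pi * Complex.I / N))
    (a d : ℕ) (b : ℤ) (hdN : d ∣ N) (ha : 0 < a) (hd : 0 < d) :
    HasQExpK ι N (cuspP ζ N a d b) (fun τ => JFun.jFun (moebPt a d b ha hd τ)) :=
  fun τ => hasSum_cuspP ι hN ζ hζ a d b hdN ha.ne' τ _ (coe_moebPt a d b ha hd τ)

/-! ### The root of unity `ζ_N` with `ι ζ_N = exp(2πi/N)` -/

theorem exists_unit_map_eq_exp [IsAlgClosed K] [CharZero K] (ι : K →+* ℂ) {N : ℕ} (hN : N ≠ 0) :
    ∃ ζ : Kˣ, IsPrimitiveRoot ζ N ∧ ι (ζ : K) = Complex.exp (2 * Real.pi * Complex.I / N) := by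
  have : NeZero N := ⟨hN⟩
  have : NeZero (N : K) := ⟨Nat.cast_ne_zero.mpr hN⟩
  obtain ⟨ξ, hξ⟩ := HasEnoughRootsOfUnity.exists_primitiveRoot K N
  have hξι : IsPrimitiveRoot (ι ξ) N := hξ.map_of_injective ι.injective
  have hexp : IsPrimitiveRoot (Complex.exp (2 * Real.pi * Complex.I / N)) N :=
    Complex.isPrimitiveRoot_exp N hN
  obtain ⟨i, _, hpow⟩ := hξι.eq_pow_of_pow_eq_one hexp.pow_eq_one
  have hζ' : ι (ξ ^ i) = Complex.exp (2 * Real.pi * Complex.I / N) := by
    rw [map_pow, hpow]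
  have hprim : IsPrimitiveRoot (ξ ^ i) N :=
    IsPrimitiveRoot.of_map_of_injective (f := ι) (by rw [hζ']; exact hexp) ι.injective
  refine ⟨(hprim.isUnit hN).unit, ?_, ?_⟩
  · rw [← IsPrimitiveRoot.coe_units_iff]
    exact hprim
  · exact hζ'

end Fermat.Agent.S24.QB
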