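import Mathlib
import Fermat.Agent.S24.QB.QExpK

set_option autoImplicit false

/-!
# More on `K`-rational `q^(1/N)`-expansions

* `hasQExpK_one_iff` : the level-one shape `∑ ι (A.coeff n) * 𝕢 1 τ ^ n`.
* `HasQExpK.qExpand`, `.qExpand_one` : change of level (`s ↦ s^N`).
* `HasQExpK.moeb` : Möbius substitution `τ ↦ (aτ+b)/d` for an arbitrary level-one expansion.
* `HasQExpK.mvAeval`, `.polyAeval` : closure under polynomial expressions.
* `HasQExpK.exists_qExpand_of_periodic` : a `1`-periodic function with a `q^(1/N)`-expansion has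
  a `q`-expansion (with the same coefficient field).
-/

open UpperHalfPlane ModularForm Complex Filter Topology Function HahnSeries
open scoped Real MatrixGroups Manifold

namespace Fermat.Agent.S24.QB

open Fermat.Agent.S24.Puiseux ModularCurve

variable {K : Type*} [Field K]

theorem exp_div_one (z : ℂ) :
    Complex.exp (2 * Real.pi * Complex.I * z / ((1 : ℕ) : ℂ)) = Complex.exp (2 * Real.pi * Complex.I * z) := by
  rw [Nat.cast_one, div_one]

/-- level one, `𝕢 1`-shape -/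
theorem hasQExpK_one_iff (ι : K →+* ℂ) (A : LaurentSeries K) (φ : ℍ → ℂ) :
    HasQExpK ι 1 A φ ↔ ∀ τ : ℍ,
      HasSum (fun n : ℤ => ι (A.coeff n) * Function.Periodic.qParam 1 (τ : ℂ) ^ n) (φ τ) := by
  rw [hasQExpK_iff_qParam]
  simp only [Nat.cast_one]

/-- level one, `exp(2πiτ)`-shape -/
theorem hasQExpK_one_iff_exp (ι : K →+* ℂ) (A : LaurentSeries K) (φ : ℍ → ℂ) :
    HasQExpK ι 1 A φ ↔ ∀ τ : ℍ,
      HasSum (evalTerm ι A (Complex.exp (2 * Real.pi * Complex.I * (τ : ℂ)))) (φ τ) := by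
  refine forall_congr' fun τ => ?_
  rw [exp_div_one]

/-- change of level: an expansion in `exp(2πiτ/M)` gives one in `exp(2πiτ/(M N))`. -/
theorem HasQExpK.qExpand {ι : K →+* ℂ} {M : ℕ} (hM : M ≠ 0) (N : ℕ) [NeZero N]
    {A : LaurentSeries K} {φ : ℍ → ℂ} (h : HasQExpK ι M A φ) :
    HasQExpK ι (M * N) (ModularCurve.qExpand K N A) φ := by
  intro τ
  rw [hasSum_qExpand_iff]
  have hN : (N : ℂ) ≠ 0 := by exact_mod_cast NeZero.ne N
  have hM' : (M : ℂ) ≠ 0 := by exact_mod_cast hM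
  have hpow : Complex.exp (2 * Real.pi * Complex.I * (τ : ℂ) / ((M * N : ℕ) : ℂ)) ^ N
      = Complex.exp (2 * Real.pi * Complex.I * (τ : ℂ) / M) := by
    rw [← Complex.exp_nat_mul]
    congr 1
    push_cast
    field_simp
  rw [hpow]
  exact h τ

theorem HasQExpK.qExpand_one {ι : K →+* ℂ} (N : ℕ) [NeZero N]
    {A : LaurentSeries K} {φ : ℍ → ℂ} (h : HasQExpK ι 1 A φ) :
    HasQExpK ι N (ModularCurve.qExpand K N A) φ := by
  have h1 := h.qExpand one_ne_zero N
  rwa [one_mul] at h1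

/-- Möbius substitution `τ ↦ (aτ+b)/d` (`d ∣ N`) in a level-one expansion. -/
theorem HasQExpK.moeb {ι : K →+* ℂ} {N : ℕ} (hN : N ≠ 0) (ζ : Kˣ)
    (hζ : ι (ζ : K) = Complex.exp (2 * Real.pi * Complex.I / N))
    (a d : ℕ) (b : ℤ) (hdN : d ∣ N) (ha : 0 < a) (hd : 0 < d) [NeZero (a * (N / d))]
    {A : LaurentSeries K} {φ : ℍ → ℂ} (h : HasQExpK ι 1 A φ) :
    HasQExpK ι N (ModularCurve.qExpand K (a * (N / d)) (scale (ζ ^ (((N / d : ℕ) : ℤ) * b)) A))
      (fun τ => φ (moebPt a d b ha hd τ)) := by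
  intro τ
  rw [hasSum_moebius_iff ι hN ζ hζ a d b hdN A (τ : ℂ)]
  have h1 := (hasQExpK_one_iff_exp ι A φ).mp h (moebPt a d b ha hd τ)
  rw [coe_moebPt] at h1
  exact h1

/-- closure under multivariate polynomial expressions -/
theorem HasQExpK.mvAeval {σ : Type*} {ι : K →+* ℂ} {N : ℕ} (A : σ → LaurentSeries K)
    (φ : σ → ℍ → ℂ) (h : ∀ i, HasQExpK ι N (A i) (φ i)) (P : MvPolynomial σ K) :
    HasQExpK ι N (MvPolynomial.aeval A P)
      (fun τ => MvPolynomial.eval₂ ι (fun i => φ i τ) P) := by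
  induction P using MvPolynomial.induction_on with
  | C c =>
    have h1 : MvPolynomial.aeval A (MvPolynomial.C c) = algebraMap K (LaurentSeries K) c := by
      simp
    rw [h1]
    exact (hasQExpK_algebraMap ι N c).congr (fun τ => by simp)
  | add p q hp hq =>
    rw [map_add]
    exact (hp.add hq).congr (fun τ => by simp [MvPolynomial.eval₂_add])
  | mul_X p i hp =>
    rw [map_mul, MvPolynomial.aeval_X]
    exact (hp.mul (h i)).congr (fun τ => by simp [MvPolynomial.eval₂_mul])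

/-- closure under polynomial expressions -/
theorem HasQExpK.polyAeval {ι : K →+* ℂ} {N : ℕ} {A : LaurentSeries K} {φ : ℍ → ℂ}
    (h : HasQExpK ι N A φ) (P : Polynomial K) :
    HasQExpK ι N (Polynomial.aeval A P) (fun τ => (P.map ι).eval (φ τ)) := by
  induction P using Polynomial.induction_on' with
  | add p q hp hq =>
    rw [map_add]
    exact (hp.add hq).congr (fun τ => by simp)
  | monomial n c =>
    have h1 : Polynomial.aeval A (Polynomial.monomial n c)
        = algebraMap K (LaurentSeries K) c * A ^ n := by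
      rw [Polynomial.aeval_monomial]
    rw [h1]
    exact ((hasQExpK_algebraMap ι N c).mul (h.pow n)).congr (fun τ => by simp)

/-! ### Periodic descent -/

/-- the series `A'` with `A'.coeff k = A.coeff (N k)` -/
noncomputable def unExpand (N : ℕ) [NeZero N] (A : LaurentSeries K) : LaurentSeries K :=
  HahnSeries.ofSuppBddBelow (fun k : ℤ => A.coeff ((N : ℤ) * k)) (by
    obtain ⟨m, hm⟩ := exists_bound A
    refine ⟨-(m : ℤ), fun k hk => ?_⟩
    by_contra hlt
    push Not at hlt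
    apply hk
    apply hm
    have hN : (1 : ℤ) ≤ N := by exact_mod_cast NeZero.one_le
    nlinarith)

theorem unExpand_coeff (N : ℕ) [NeZero N] (A : LaurentSeries K) (k : ℤ) :
    (unExpand N A).coeff k = A.coeff ((N : ℤ) * k) := rfl

theorem qExpand_unExpand (N : ℕ) [NeZero N] (A : LaurentSeries K)
    (h : ∀ n : ℤ, ¬ (N : ℤ) ∣ n → A.coeff n = 0) : ModularCurve.qExpand K N (unExpand N A) = A := by
  ext n
  by_cases hn : (N : ℤ) ∣ n
  · obtain ⟨k, rfl⟩ := hn
    rw [qExpand_coeff_mul]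
    rfl
  · rw [qExpand_coeff_of_not_dvd _ _ hn, h n hn]

/-- A function with a `q^(1/N)`-expansion `A` which is invariant under `τ ↦ τ + 1` has a
`q`-expansion `A'`, and `A = A'(s^N)`. -/
theorem HasQExpK.exists_qExpand_of_periodic {ι : K →+* ℂ} {N : ℕ} [NeZero N]
    {A : LaurentSeries K} {φ : ℍ → ℂ} (ζ : Kˣ)
    (hζ : ι (ζ : K) = Complex.exp (2 * Real.pi * Complex.I / N))
    (h : HasQExpK ι N A φ) (hper : ∀ τ : ℍ, φ ((1 : ℝ) +ᵥ τ) = φ τ) :
    ∃ A' : LaurentSeries K, A = ModularCurve.qExpand K N A' ∧ HasQExpK ι 1 A' φ := by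
  have hN := NeZero.ne N
  have hsc : scale ζ A = A := ((h.shift ζ hζ).congr hper).unique hN h
  have hvan : ∀ n : ℤ, ¬ (N : ℤ) ∣ n → A.coeff n = 0 := by
    intro n hn
    by_contra hne
    have h1 : ((ζ ^ n : Kˣ) : K) * A.coeff n = A.coeff n := by
      rw [← scale_coeff, hsc]
    have h2 : ((ζ ^ n : Kˣ) : K) = 1 :=
      mul_right_cancel₀ hne (h1.trans (one_mul _).symm)
    have h3 : ι ((ζ ^ n : Kˣ) : K) = 1 := by rw [h2, map_one]
    rw [map_units_zpow, hζ] at h3
    exact hn (((Complex.isPrimitiveRoot_exp N hN).zpow_eq_one_iff_dvd n).mp h3)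
  refine ⟨unExpand N A, (qExpand_unExpand N A hvan).symm, ?_⟩
  rw [hasQExpK_one_iff_exp]
  intro τ
  have h1 := h τ
  rw [← qExpand_unExpand N A hvan, hasSum_qExpand_iff, exp_div_pow N hN] at h1
  exact h1

end Fermat.Agent.S24.QB
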