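import Mathlib
import Fermat.Prelude.Def_ModularCurve_JqCoeff

set_option autoImplicit false

open UpperHalfPlane ModularForm Complex Filter Topology Function
open scoped Real MatrixGroups Manifold

namespace Fermat.Agent.S24.QB

local notation "𝕢" => Function.Periodic.qParam

theorem tendstoLU_iteratedDeriv {U : Set ℂ} (hU : IsOpen U) {ι : Type*} {φ : Filter ι}
    {F : ι → ℂ → ℂ} {f : ℂ → ℂ} (h : TendstoLocallyUniformlyOn F f φ U)
    (hF : ∀ᶠ n in φ, DifferentiableOn ℂ (F n) U) (m : ℕ) :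
    TendstoLocallyUniformlyOn (fun n => iteratedDeriv m (F n)) (iteratedDeriv m f) φ U ∧
      ∀ᶠ n in φ, DifferentiableOn ℂ (iteratedDeriv m (F n)) U := by
  induction m with
  | zero => simpa using ⟨h, hF⟩
  | succ m ih =>
    refine ⟨?_, ?_⟩
    · have := ih.1.deriv ih.2 hU
      simpa [iteratedDeriv_succ, Function.comp_def] using this
    · filter_upwards [ih.2] with n hn
      simpa [iteratedDeriv_succ] using hn.deriv hU

theorem iteratedDeriv_polynomial_eval (p : Polynomial ℂ) (m : ℕ) :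
    iteratedDeriv m (fun q => p.eval q) = fun q => (Polynomial.derivative^[m] p).eval q := by
  induction m with
  | zero => simp
  | succ m ih =>
    rw [iteratedDeriv_succ, ih]
    funext q
    rw [Polynomial.deriv, Function.iterate_succ_apply']

theorem iteratedDeriv_polynomial_eval_zero (p : Polynomial ℂ) (m : ℕ) :
    iteratedDeriv m (fun q => p.eval q) 0 = m.factorial * p.coeff m := by
  rw [iteratedDeriv_polynomial_eval]
  simp only
  rw [← Polynomial.coeff_zero_eq_eval_zero, Polynomial.coeff_iterate_derivative]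
  simp [Nat.descFactorial_self]

open scoped PowerSeries.WithPiTopology in
theorem eventually_coeff_prod_eq (m : ℕ) :
    ∀ᶠ s : Finset ℕ in atTop,
      PowerSeries.coeff m (∏ n ∈ s, (1 - PowerSeries.X ^ (n + 1)) : PowerSeries ℤ)
        = PowerSeries.coeff m ModularCurve.etaProd := by
  have h1 : HasProd (fun n : ℕ => (1 - PowerSeries.X ^ (n + 1) : PowerSeries ℤ))
      ModularCurve.etaProd :=
    (PowerSeries.WithPiTopology.multipliable_one_sub_X_pow ℤ).hasProd
  have h2 := ((PowerSeries.WithPiTopology.continuous_coeff ℤ m).tendsto _).comp h1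
  rw [nhds_discrete, tendsto_pure] at h2
  exact h2

/-- The Euler function on the unit disc. -/
noncomputable def eulerDisc (q : ℂ) : ℂ := ∏' n : ℕ, (1 - q ^ (n + 1))

theorem iteratedDeriv_eulerDisc (m : ℕ) :
    iteratedDeriv m eulerDisc 0 = m.factorial * ((PowerSeries.coeff m ModularCurve.etaProd : ℤ) : ℂ) := by
  have hLU : TendstoLocallyUniformlyOn (fun (s : Finset ℕ) (q : ℂ) => ∏ n ∈ s, (1 - q ^ (n + 1)))
      eulerDisc atTop (Metric.ball (0 : ℂ) 1) := by
    have := multipliableLocallyUniformlyOn_one_sub_pow.hasProdLocallyUniformlyOn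
    rw [hasProdLocallyUniformlyOn_iff_tendstoLocallyUniformlyOn] at this
    exact this
  have hdiff : ∀ᶠ s : Finset ℕ in atTop, DifferentiableOn ℂ
      (fun (q : ℂ) => ∏ n ∈ s, (1 - q ^ (n + 1))) (Metric.ball (0 : ℂ) 1) :=
    Eventually.of_forall fun s => by fun_prop
  have h3 := (tendstoLU_iteratedDeriv Metric.isOpen_ball hLU hdiff m).1.tendsto_at
    (Metric.mem_ball_self one_pos)
  have h4 : ∀ s : Finset ℕ, iteratedDeriv m (fun (q : ℂ) => ∏ n ∈ s, (1 - q ^ (n + 1))) 0
      = m.factorial * ((PowerSeries.coeff m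
          (∏ n ∈ s, (1 - PowerSeries.X ^ (n + 1)) : PowerSeries ℤ) : ℤ) : ℂ) := by
    intro s
    have e1 : (fun (q : ℂ) => ∏ n ∈ s, (1 - q ^ (n + 1)))
        = fun q => (∏ n ∈ s, (1 - Polynomial.X ^ (n + 1)) : Polynomial ℂ).eval q := by
      funext q
      simp [Polynomial.eval_prod]
    rw [e1, iteratedDeriv_polynomial_eval_zero]
    congr 1
    have e2 : (∏ n ∈ s, (1 - Polynomial.X ^ (n + 1)) : Polynomial ℂ)
        = (∏ n ∈ s, (1 - Polynomial.X ^ (n + 1)) : Polynomial ℤ).map (Int.castRingHom ℂ) := by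
      simp [Polynomial.map_prod]
    have e3 : (∏ n ∈ s, (1 - PowerSeries.X ^ (n + 1)) : PowerSeries ℤ)
        = ((∏ n ∈ s, (1 - Polynomial.X ^ (n + 1)) : Polynomial ℤ) : PowerSeries ℤ) := by
      rw [← Polynomial.coeToPowerSeries.ringHom_apply, map_prod]
      simp
    rw [e2, e3, Polynomial.coeff_map, Polynomial.coeff_coe]
    simp
  have h5 : Tendsto (fun s : Finset ℕ => iteratedDeriv m
      (fun (q : ℂ) => ∏ n ∈ s, (1 - q ^ (n + 1))) 0) atTop
      (𝓝 (m.factorial * ((PowerSeries.coeff m ModularCurve.etaProd : ℤ) : ℂ))) := by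
    refine Tendsto.congr' ?_ tendsto_const_nhds
    filter_upwards [eventually_coeff_prod_eq m] with s hs
    rw [h4 s, hs]
  exact tendsto_nhds_unique h3 h5

theorem eulerDisc_differentiableOn : DifferentiableOn ℂ eulerDisc (Metric.ball (0 : ℂ) 1) :=
  differentiableOn_tprod_one_sub_pow

theorem eulerDisc_zero : eulerDisc 0 = 1 := by
  simp [eulerDisc]

theorem eulerDisc_ne_zero {q : ℂ} (hq : ‖q‖ < 1) : eulerDisc q ≠ 0 := by
  unfold eulerDisc
  refine tprod_one_add_ne_zero_of_summable (f := fun n => -q ^ (n + 1)) ?_ ?_ |> fun h => by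
    simpa [sub_eq_add_neg] using h
  · intro i
    have : ‖q ^ (i + 1)‖ < 1 := by
      rw [norm_pow]
      exact pow_lt_one₀ (norm_nonneg _) hq (by omega)
    intro h
    have h2 : q ^ (i + 1) = 1 := by linear_combination -h
    rw [h2] at this
    simp at this
  · simpa using (summable_nat_add_iff 1).mpr (summable_geometric_of_lt_one (norm_nonneg _) hq)

/-- The Euler function on the upper half plane. -/
noncomputable def eulerPhi (τ : ℍ) : ℂ := eulerDisc (𝕢 1 τ)

theorem norm_qParam_lt_one' (τ : ℍ) : ‖𝕢 1 (τ : ℂ)‖ < 1 :=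
  Periodic.norm_qParam_lt_one one_pos τ.im_pos

theorem eulerPhi_ne_zero (τ : ℍ) : eulerPhi τ ≠ 0 := eulerDisc_ne_zero (norm_qParam_lt_one' τ)

/-- A function of the form `F ∘ 𝕢` with `F` holomorphic on the unit disc: periodicity. -/
theorem periodic_comp_qParam (F : ℂ → ℂ) :
    Periodic ((fun τ : ℍ => F (𝕢 1 τ)) ∘ ofComplex) (1 : ℝ) := by
  intro z
  simp only [Function.comp_apply]
  by_cases hz : 0 < z.im
  · have hz' : 0 < (z + (1 : ℝ)).im := by simpa using hz
    rw [ofComplex_apply_of_im_pos hz, ofComplex_apply_of_im_pos hz']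
    congr 1
    show 𝕢 1 (z + (1 : ℝ)) = 𝕢 1 z
    simp only [Periodic.qParam, ofReal_one, div_one, mul_add, Complex.exp_add]
    rw [mul_one, Complex.exp_two_pi_mul_I, mul_one]
  · have hz1 : z.im ≤ 0 := not_lt.mp hz
    have hz' : (z + (1 : ℝ)).im ≤ 0 := by simpa using hz1
    rw [ofComplex_apply_eq_of_im_nonpos hz' hz1]

theorem mdiff_comp_qParam {F : ℂ → ℂ} (hF : DifferentiableOn ℂ F (Metric.ball (0 : ℂ) 1)) :
    MDiff (fun τ : ℍ => F (𝕢 1 τ)) := by
  rw [UpperHalfPlane.mdifferentiable_iff]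
  have h1 : DifferentiableOn ℂ (F ∘ (𝕢 1)) upperHalfPlaneSet := by
    refine hF.comp (by unfold Periodic.qParam; fun_prop) ?_
    intro z hz
    simpa using Periodic.norm_qParam_lt_one one_pos hz
  refine h1.congr ?_
  intro z hz
  simp [ofComplex_apply_of_im_pos hz]

theorem tendsto_comp_qParam {F : ℂ → ℂ} (hF : DifferentiableOn ℂ F (Metric.ball (0 : ℂ) 1)) :
    Tendsto (fun τ : ℍ => F (𝕢 1 τ)) atImInfty (𝓝 (F 0)) := by
  have hc : ContinuousAt F 0 :=
    (hF.differentiableAt (Metric.ball_mem_nhds 0 one_pos)).continuousAt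
  exact hc.tendsto.comp (qParam_tendsto_atImInfty one_pos)

theorem bdd_comp_qParam {F : ℂ → ℂ} (hF : DifferentiableOn ℂ F (Metric.ball (0 : ℂ) 1)) :
    IsBoundedAtImInfty (fun τ : ℍ => F (𝕢 1 τ)) :=
  (tendsto_comp_qParam hF).isBigO_one ℝ

theorem cuspFunction_comp_qParam {F : ℂ → ℂ} (hF : DifferentiableOn ℂ F (Metric.ball (0 : ℂ) 1)) :
    cuspFunction 1 (fun τ : ℍ => F (𝕢 1 τ)) =ᶠ[𝓝 0] F := by
  have hana : AnalyticAt ℂ (cuspFunction 1 (fun τ : ℍ => F (𝕢 1 τ))) 0 :=
    analyticAt_cuspFunction_zero one_pos (periodic_comp_qParam F) (mdiff_comp_qParam hF)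
      (bdd_comp_qParam hF)
  have hc : ContinuousAt F 0 :=
    (hF.differentiableAt (Metric.ball_mem_nhds 0 one_pos)).continuousAt
  refine (hana.continuousAt.eventuallyEq_nhds_iff_eventuallyEq_nhdsNE hc).mp ?_
  have hball : ∀ᶠ q in 𝓝[≠] (0 : ℂ), q ∈ Metric.ball (0 : ℂ) 1 :=
    nhdsWithin_le_nhds (Metric.ball_mem_nhds 0 one_pos)
  filter_upwards [hball, self_mem_nhdsWithin] with q hq hq0
  have hq' : ‖q‖ < 1 := by simpa using hq
  have him := Periodic.im_invQParam_pos_of_norm_lt_one one_pos hq' hq0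
  simp [cuspFunction, Periodic.cuspFunction_eq_of_nonzero 1 _ hq0,
    ofComplex_apply_of_im_pos him, Periodic.qParam_right_inv one_ne_zero hq0]

theorem qExpansion_comp_qParam_coeff {F : ℂ → ℂ}
    (hF : DifferentiableOn ℂ F (Metric.ball (0 : ℂ) 1)) (m : ℕ) :
    (qExpansion 1 (fun τ : ℍ => F (𝕢 1 τ))).coeff m = (m.factorial : ℂ)⁻¹ * iteratedDeriv m F 0 := by
  rw [qExpansion_coeff, (cuspFunction_comp_qParam hF).iteratedDeriv_eq m]

theorem qExpansion_eulerPhi :
    qExpansion 1 eulerPhi = ModularCurve.etaProd.map (Int.castRingHom ℂ) := by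
  ext m
  rw [show eulerPhi = fun τ : ℍ => eulerDisc (𝕢 1 τ) from rfl,
    qExpansion_comp_qParam_coeff eulerDisc_differentiableOn, iteratedDeriv_eulerDisc,
    PowerSeries.coeff_map]
  have : (m.factorial : ℂ) ≠ 0 := by exact_mod_cast m.factorial_ne_zero
  simp [this]

theorem analyticAt_cusp_comp_qParam {F : ℂ → ℂ}
    (hF : DifferentiableOn ℂ F (Metric.ball (0 : ℂ) 1)) :
    AnalyticAt ℂ (cuspFunction 1 (fun τ : ℍ => F (𝕢 1 τ))) 0 :=
  analyticAt_cuspFunction_zero one_pos (periodic_comp_qParam F) (mdiff_comp_qParam hF)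
    (bdd_comp_qParam hF)

/-- The inverse of the 24-th power of the Euler function on the unit disc. -/
noncomputable def etaInvDisc (q : ℂ) : ℂ := (eulerDisc q ^ 24)⁻¹

theorem eulerDisc_pow_differentiableOn :
    DifferentiableOn ℂ (fun q => eulerDisc q ^ 24) (Metric.ball (0 : ℂ) 1) :=
  eulerDisc_differentiableOn.pow 24

theorem etaInvDisc_differentiableOn : DifferentiableOn ℂ etaInvDisc (Metric.ball (0 : ℂ) 1) := by
  refine (eulerDisc_differentiableOn.pow 24).inv ?_
  intro q hq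
  exact pow_ne_zero _ (eulerDisc_ne_zero (by simpa using hq))

theorem qExpansion_eulerPhi_pow (k : ℕ) :
    qExpansion 1 (fun τ : ℍ => eulerDisc (𝕢 1 τ) ^ k)
      = (ModularCurve.etaProd.map (Int.castRingHom ℂ)) ^ k := by
  induction k with
  | zero =>
    simp only [pow_zero]
    exact qExpansion_one 1
  | succ k ih =>
    have h1 : (fun τ : ℍ => eulerDisc (𝕢 1 τ) ^ (k + 1))
        = (fun τ : ℍ => eulerDisc (𝕢 1 τ) ^ k) * (fun τ : ℍ => eulerDisc (𝕢 1 τ)) := by
      funext τ
      simp [pow_succ]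
    rw [h1, qExpansion_mul
      (analyticAt_cusp_comp_qParam (F := fun q => eulerDisc q ^ k)
        (eulerDisc_differentiableOn.pow k))
      (analyticAt_cusp_comp_qParam eulerDisc_differentiableOn), ih, pow_succ]
    congr 1
    exact qExpansion_eulerPhi

theorem qExpansion_etaInv :
    qExpansion 1 (fun τ : ℍ => etaInvDisc (𝕢 1 τ))
      = ModularCurve.dedekindEtaUnitInv.map (Int.castRingHom ℂ) := by
  have h1 : (fun τ : ℍ => etaInvDisc (𝕢 1 τ)) * (fun τ : ℍ => eulerDisc (𝕢 1 τ) ^ 24)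
      = (1 : ℍ → ℂ) := by
    funext τ
    simp only [Pi.mul_apply, Pi.one_apply, etaInvDisc]
    exact inv_mul_cancel₀ (pow_ne_zero _ (eulerDisc_ne_zero (norm_qParam_lt_one' τ)))
  have h2 := qExpansion_mul (h := 1)
    (analyticAt_cusp_comp_qParam etaInvDisc_differentiableOn)
    (analyticAt_cusp_comp_qParam (F := fun q => eulerDisc q ^ 24)
      (eulerDisc_differentiableOn.pow 24))
  rw [h1, qExpansion_one, qExpansion_eulerPhi_pow] at h2
  have h3 : (ModularCurve.etaProd.map (Int.castRingHom ℂ)) ^ 24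
      * ModularCurve.dedekindEtaUnitInv.map (Int.castRingHom ℂ) = 1 := by
    have := congrArg (PowerSeries.map (Int.castRingHom ℂ)) ModularCurve.dedekindEtaUnit_mul_inv
    rw [map_mul, map_one, ModularCurve.dedekindEtaUnit, map_pow] at this
    exact this
  calc qExpansion 1 (fun τ : ℍ => etaInvDisc (𝕢 1 τ))
      = qExpansion 1 (fun τ : ℍ => etaInvDisc (𝕢 1 τ)) *
          ((ModularCurve.etaProd.map (Int.castRingHom ℂ)) ^ 24
            * ModularCurve.dedekindEtaUnitInv.map (Int.castRingHom ℂ)) := by rw [h3, mul_one]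
    _ = ModularCurve.dedekindEtaUnitInv.map (Int.castRingHom ℂ) := by
        rw [← mul_assoc, ← h2, one_mul]

theorem qExpansion_E4 :
    qExpansion 1 (⇑E₄) = ModularCurve.eisenstein4.map (Int.castRingHom ℂ) := by
  ext m
  rw [EisensteinSeries.E_qExpansion_coeff _ ⟨2, rfl⟩, PowerSeries.coeff_map,
    ModularCurve.eisenstein4, PowerSeries.coeff_mk]
  have hb : bernoulli 4 = -1 / 30 := by
    rw [bernoulli_eq_bernoulli'_of_ne_one (by norm_num), bernoulli'_four]
  by_cases hm : m = 0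
  · simp [hm]
  · simp only [hm, if_false, hb, ArithmeticFunction.sigma_apply, eq_intCast]
    push_cast
    ring

/-- Holomorphic, 1-periodic, bounded at infinity. -/
structure Nice (f : ℍ → ℂ) : Prop where
  per : Periodic (f ∘ ofComplex) (1 : ℝ)
  holo : MDiff f
  bdd : IsBoundedAtImInfty f

theorem Nice.analytic {f : ℍ → ℂ} (hf : Nice f) : AnalyticAt ℂ (cuspFunction 1 f) 0 :=
  analyticAt_cuspFunction_zero one_pos hf.per hf.holo hf.bdd

theorem Nice.mul {f g : ℍ → ℂ} (hf : Nice f) (hg : Nice g) : Nice (f * g) where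
  per := by
    have h1 : (f * g) ∘ ofComplex = (f ∘ ofComplex) * (g ∘ ofComplex) := rfl
    rw [h1]
    exact hf.per.mul hg.per
  holo := hf.holo.mul hg.holo
  bdd := hf.bdd.mul hg.bdd

theorem Nice.pow {f : ℍ → ℂ} (hf : Nice f) (k : ℕ) : Nice (f ^ k) := by
  induction k with
  | zero =>
    rw [pow_zero]
    refine ⟨fun z => rfl, mdifferentiable_const, ?_⟩
    exact Filter.const_boundedAtFilter atImInfty (1 : ℂ)
  | succ k ih =>
    rw [pow_succ]
    exact ih.mul hf

theorem nice_comp_qParam {F : ℂ → ℂ} (hF : DifferentiableOn ℂ F (Metric.ball (0 : ℂ) 1)) :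
    Nice (fun τ : ℍ => F (𝕢 1 τ)) :=
  ⟨periodic_comp_qParam F, mdiff_comp_qParam hF, bdd_comp_qParam hF⟩

theorem nice_E4 : Nice (⇑E₄) where
  per := SlashInvariantFormClass.periodic_comp_ofComplex E₄ one_mem_strictPeriods_SL
  holo := ModularFormClass.holo E₄
  bdd := ModularFormClass.bdd_at_infty E₄

theorem qExpansion_pow_of_nice {f : ℍ → ℂ} (hf : Nice f) (k : ℕ) :
    qExpansion 1 (f ^ k) = (qExpansion 1 f) ^ k := by
  induction k with
  | zero => rw [pow_zero, pow_zero]; exact qExpansion_one 1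
  | succ k ih => rw [pow_succ, qExpansion_mul (hf.pow k).analytic hf.analytic, ih, pow_succ]

/-- The function `q * j`. -/
noncomputable def jqFun : ℍ → ℂ := (⇑E₄) ^ 3 * (fun τ : ℍ => etaInvDisc (𝕢 1 τ))

theorem nice_jqFun : Nice jqFun :=
  (nice_E4.pow 3).mul (nice_comp_qParam etaInvDisc_differentiableOn)

theorem qExpansion_jqFun :
    qExpansion 1 jqFun = ModularCurve.jNum.map (Int.castRingHom ℂ) := by
  rw [jqFun, qExpansion_mul (nice_E4.pow 3).analytic
    (nice_comp_qParam etaInvDisc_differentiableOn).analytic, qExpansion_pow_of_nice nice_E4,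
    qExpansion_E4, qExpansion_etaInv, ModularCurve.jNum, map_mul, map_pow]

theorem jqFun_eq (τ : ℍ) : jqFun τ = 𝕢 1 τ * (E₄ τ ^ 3 / discriminant τ) := by
  have h1 : discriminant τ = 𝕢 1 τ * eulerDisc (𝕢 1 τ) ^ 24 := by
    rw [discriminant_eq_q_prod]
    congr 1
    have := (multipliableLocallyUniformlyOn_eta.multipliable τ.2).tprod_pow 24
    simp only [eulerDisc]
    exact this
  have hq : 𝕢 1 (τ : ℂ) ≠ 0 := Periodic.qParam_ne_zero _
  have he : eulerDisc (𝕢 1 τ) ^ 24 ≠ 0 := pow_ne_zero _ (eulerDisc_ne_zero (norm_qParam_lt_one' τ))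
  rw [h1]
  simp only [jqFun, Pi.mul_apply, Pi.pow_apply, etaInvDisc]
  field_simp

/-- The analytic `j`-function times `q` has the power series expansion given by the
integral power series `jNum` of the prelude. -/
theorem hasSum_jq (τ : ℍ) :
    HasSum (fun m : ℕ => ((PowerSeries.coeff m ModularCurve.jNum : ℤ) : ℂ) * 𝕢 1 τ ^ m)
      (𝕢 1 τ * (E₄ τ ^ 3 / discriminant τ)) := by
  have h := hasSum_qExpansion one_pos nice_jqFun.per nice_jqFun.holo nice_jqFun.bdd τ
  rw [qExpansion_jqFun, jqFun_eq] at h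
  simpa [PowerSeries.coeff_map] using h

end Fermat.Agent.S24.QB
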